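/-
S26 / SS / Ev (SS-3) : evaluation of a generating section; a base change along an injective ring hom of a flat
module is injective.
-/
import Fermat.Agent.S26.Alg.Semi
import Fermat.Agent.S26.Alg.SemiBC

set_option autoImplicit false
set_option linter.style.haveILetI false

open scoped TensorProduct

universe u

namespace Fermat.Agent.S26

theorem ss_ev_abs' {S R S' k : Type u} [CommRing S] [CommRing R] [CommRing S'] [Field k]
    (σ : S →+* R) (μ : S →+* S') (φ : R →+* k) (σ' : S' →+* k) (hsq : σ'.comp μ = φ.comp σ)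
    {N Λ N' Λ' : Type u} [AddCommGroup N] [Module S N] [AddCommGroup Λ] [Module R Λ]
    [AddCommGroup N'] [Module S' N'] [AddCommGroup Λ'] [Module k Λ']
    (ev : N →ₛₗ[σ] Λ) (hev : Submodule.span R (Set.range ev) = ⊤)
    (F : N →ₛₗ[μ] N') (hF : IsBC μ F) (e : Λ →ₛₗ[φ] Λ') (he : Submodule.span k (Set.range e) = ⊤)
    (n : N) (hn : Submodule.span S' {F n} = ⊤) : Submodule.span k {e (ev n)} = ⊤ := by
  letI : Module S' Λ' := Module.compHom Λ' σ'
  have hsm : ∀ (c : S') (x : Λ'), c • x = σ' c • x := fun _ _ => rfl
  let g : N →ₛₗ[μ] Λ' :=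
    { toFun := fun x => e (ev x)
      map_add' := fun a b => by rw [map_add, map_add]
      map_smul' := fun s x => by
        rw [ev.map_smulₛₗ, e.map_smulₛₗ, hsm]
        congr 1
        exact (RingHom.congr_fun hsq s).symm }
  let θ : N' →ₗ[S'] Λ' := hF.lift μ g
  have hθ : ∀ x, θ (F x) = e (ev x) := fun x => IsBC.lift_apply μ hF g x
  have h1 : ∀ y : N', θ y ∈ Submodule.span k {e (ev n)} := by
    intro y
    have hy : y ∈ Submodule.span S' {F n} := hn ▸ Submodule.mem_top
    obtain ⟨c, rfl⟩ := Submodule.mem_span_singleton.1 hy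
    rw [map_smul, hθ, hsm]
    exact Submodule.smul_mem _ _ (Submodule.mem_span_singleton_self _)
  rw [eq_top_iff, ← he, Submodule.span_le]
  rintro _ ⟨l, rfl⟩
  have hl : l ∈ Submodule.span R (Set.range ev) := hev ▸ Submodule.mem_top
  induction hl using Submodule.span_induction with
  | mem x hx =>
    obtain ⟨m, rfl⟩ := hx
    exact hθ m ▸ h1 (F m)
  | zero => rw [map_zero]; exact zero_mem _
  | add x y _ _ hx hy => rw [map_add]; exact add_mem hx hy
  | smul a x _ hx => rw [e.map_smulₛₗ]; exact Submodule.smul_mem _ _ hx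

theorem isBC_injective_of_flat' {S S' : Type u} [CommRing S] [CommRing S'] (μ : S →+* S')
    (hμ : Function.Injective μ) {N N' : Type u} [AddCommGroup N] [Module S N] [AddCommGroup N']
    [Module S' N'] [Module.Flat S N] (F : N →ₛₗ[μ] N') (hF : IsBC μ F) : Function.Injective F := by
  letI := μ.toAlgebra
  letI := Module.compHom N' μ
  haveI : IsScalarTower S S' N' := IsScalarTower.of_algebraMap_smul fun _ _ => rfl
  have h : IsBaseChange S' (semiToLin μ F) := hF
  have h1 : Function.Injective ((Algebra.linearMap S S').rTensor N) :=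
    Module.Flat.rTensor_preserves_injective_linearMap (M := N) (Algebra.linearMap S S') hμ
  have h2 : ∀ x : N, F x = h.equiv (((Algebra.linearMap S S').rTensor N)
      ((TensorProduct.lid S N).symm x)) := by
    intro x
    rw [TensorProduct.lid_symm_apply, LinearMap.rTensor_tmul, Algebra.linearMap_apply, map_one,
      h.equiv_tmul, one_smul]
    rfl
  intro x y hxy
  rw [h2, h2] at hxy
  exact (TensorProduct.lid S N).symm.injective (h1 (h.equiv.injective hxy))

end Fermat.Agent.S26
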