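/-
S26 / SS / Flat : package SS-1.  A finite module over a domain with constant fibre dimension is flat.
-/
import Mathlib

set_option autoImplicit false

open scoped TensorProduct

universe u

namespace Fermat.Agent.S26

open Module IsLocalRing in
/-- A finite module over a local ring `A` embedded in a field `L`, whose fibres over the residue field and over `L` have the
same dimension, is free. -/
theorem free_of_finrank_residue_eq_finrank_field {A M L : Type u} [CommRing A] [IsLocalRing A]
    [AddCommGroup M] [Module A M] [Module.Finite A M] [Field L] [Algebra A L]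
    (hinj : Function.Injective (algebraMap A L)) (c : ℕ)
    (h1 : finrank (ResidueField A) (ResidueField A ⊗[A] M) = c)
    (h2 : finrank L (L ⊗[A] M) = c) : Module.Free A M := by
  classical
  let b : Basis (Fin c) (ResidueField A) (ResidueField A ⊗[A] M) := finBasisOfFinrankEq _ _ h1
  have hsurj : Function.Surjective (TensorProduct.mk A (ResidueField A) M 1) :=
    TensorProduct.mk_surjective A M _ Ideal.Quotient.mk_surjective
  choose v hv using fun i => hsurj (b i)
  have hspan : Submodule.span A (Set.range v) = ⊤ :=
    span_eq_top_of_tmul_eq_basis v b hv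
  have hspanL : Submodule.span L (Set.range fun i => (1 : L) ⊗ₜ[A] v i) = ⊤ := by
    have h3 := Submodule.baseChange_span (R := A) (A := L) (Set.range v)
    rw [hspan, Submodule.baseChange_top, ← Set.range_comp] at h3
    exact h3.symm
  have hliL : LinearIndependent L (fun i => (1 : L) ⊗ₜ[A] v i) :=
    linearIndependent_of_top_le_span_of_card_eq_finrank hspanL.ge (by simp [h2])
  have hli : LinearIndependent A v := by
    have h4 : LinearIndependent A (fun i => (1 : L) ⊗ₜ[A] v i) := by
      refine hliL.restrict_scalars ?_
      intro x y hxy
      apply hinj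
      simpa [Algebra.smul_def] using hxy
    exact LinearIndependent.of_comp (TensorProduct.mk A L M 1) h4
  exact Module.Free.of_basis (Basis.mk hli hspan.ge)

open Module IsLocalRing in
theorem flat_of_fiber_const (R H : Type u) [CommRing R] [IsDomain R] [AddCommGroup H] [Module R H]
    [Module.Finite R H] (c : ℕ)
    (h : ∀ p : PrimeSpectrum R,
      Module.finrank p.asIdeal.ResidueField (p.asIdeal.ResidueField ⊗[R] H) = c) :
    Module.Flat R H := by
  apply Module.flat_of_isLocalized_maximal R H (fun P _ => Localization.AtPrime P ⊗[R] H)
    (fun P _ => TensorProduct.mk R (Localization.AtPrime P) H 1)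
  intro P hP
  have hunits : ∀ y : P.primeCompl, IsUnit (algebraMap R (⊥ : Ideal R).ResidueField y) := by
    intro y
    rw [isUnit_iff_ne_zero, Ne, Ideal.algebraMap_residueField_eq_zero]
    intro hy
    exact y.2 (by rw [Ideal.mem_bot.1 hy]; exact P.zero_mem)
  letI : Algebra (Localization.AtPrime P) (⊥ : Ideal R).ResidueField :=
    (IsLocalization.lift hunits).toAlgebra
  haveI : IsScalarTower R (Localization.AtPrime P) (⊥ : Ideal R).ResidueField :=
    .of_algebraMap_eq fun x => (IsLocalization.lift_eq hunits x).symm
  have hinj : Function.Injective
      (algebraMap (Localization.AtPrime P) (⊥ : Ideal R).ResidueField) := by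
    rw [injective_iff_map_eq_zero]
    intro a ha
    obtain ⟨x, s, rfl⟩ := IsLocalization.exists_mk'_eq P.primeCompl a
    have h5 : algebraMap (Localization.AtPrime P) (⊥ : Ideal R).ResidueField
        (IsLocalization.mk' (Localization.AtPrime P) x s * algebraMap R _ (s : R)) = 0 := by
      rw [map_mul, ha, zero_mul]
    rw [IsLocalization.mk'_spec, ← IsScalarTower.algebraMap_apply,
      Ideal.algebraMap_residueField_eq_zero, Ideal.mem_bot] at h5
    rw [h5, IsLocalization.mk'_zero]
  have h1 : finrank (ResidueField (Localization.AtPrime P))
      (ResidueField (Localization.AtPrime P) ⊗[Localization.AtPrime P]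
        (Localization.AtPrime P ⊗[R] H)) = c := by
    rw [← h ⟨P, inferInstance⟩]
    exact (TensorProduct.AlgebraTensorModule.cancelBaseChange R (Localization.AtPrime P)
      (ResidueField (Localization.AtPrime P)) (ResidueField (Localization.AtPrime P)) H).finrank_eq
  have h2 : finrank (⊥ : Ideal R).ResidueField
      ((⊥ : Ideal R).ResidueField ⊗[Localization.AtPrime P]
        (Localization.AtPrime P ⊗[R] H)) = c := by
    rw [← h ⟨⊥, Ideal.isPrime_bot⟩]
    exact (TensorProduct.AlgebraTensorModule.cancelBaseChange R (Localization.AtPrime P)
      (⊥ : Ideal R).ResidueField (⊥ : Ideal R).ResidueField H).finrank_eq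
  haveI : Module.Free (Localization.AtPrime P) (Localization.AtPrime P ⊗[R] H) :=
    free_of_finrank_residue_eq_finrank_field hinj c h1 h2
  exact Module.Flat.trans R (Localization.AtPrime P) _

end Fermat.Agent.S26
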