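/-
S26 / SS / H0Surj (SS-2) : if `H¹` of a `P1Mod` is flat then `H⁰` surjects onto the `H⁰` of the
reduction modulo an ideal.  Sorry free; does not import the skeleton `SS/Core.lean`.
-/
import Fermat.Agent.S26.P1.Defs
import Fermat.Agent.S26.P1.BaseChange

set_option autoImplicit false
set_option linter.style.haveILetI false

open scoped TensorProduct

universe u

namespace Fermat.Agent.S26

section General

variable {S S' : Type u} [CommRing S] [CommRing S'] {φ : S →+* S'}
  {M M' : Type u} [AddCommGroup M] [Module S M] [AddCommGroup M'] [Module S' M']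

/-- a base change along a surjective ring homomorphism is surjective -/
theorem H0Surj_surjective (hφ : Function.Surjective φ) {g : M →ₛₗ[φ] M'} (hg : IsBC φ g) :
    Function.Surjective g := by
  intro x
  refine hg.bcInduction (fun x => ∃ m, g m = x) ⟨0, map_zero g⟩ (fun m => ⟨m, rfl⟩) ?_ ?_ x
  · rintro s _ ⟨m, rfl⟩
    obtain ⟨r, rfl⟩ := hφ s
    exact ⟨r • m, g.map_smulₛₗ r m⟩
  · rintro _ _ ⟨m, rfl⟩ ⟨m', rfl⟩
    exact ⟨m + m', map_add g m m'⟩

/-- the multiplication map `I ⊗ M → M` -/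
noncomputable def H0SurjMu (I : Ideal S) (M : Type u) [AddCommGroup M] [Module S M] :
    I ⊗[S] M →ₗ[S] M :=
  (TensorProduct.lid S M).toLinearMap ∘ₗ LinearMap.rTensor M (Submodule.subtype I)

@[simp] theorem H0SurjMu_tmul (I : Ideal S) (a : I) (m : M) :
    H0SurjMu I M (a ⊗ₜ m) = (a : S) • m := by
  simp [H0SurjMu]

theorem H0SurjMu_mem (I : Ideal S) (z : I ⊗[S] M) :
    H0SurjMu I M z ∈ I • (⊤ : Submodule S M) := by
  induction z with
  | zero => rw [map_zero]; exact Submodule.zero_mem _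
  | tmul a m => rw [H0SurjMu_tmul]; exact Submodule.smul_mem_smul a.2 Submodule.mem_top
  | add x y hx hy => rw [map_add]; exact Submodule.add_mem _ hx hy

theorem H0SurjMu_exists (I : Ideal S) {m : M} (hm : m ∈ I • (⊤ : Submodule S M)) :
    ∃ z : I ⊗[S] M, H0SurjMu I M z = m := by
  induction hm using Submodule.smul_induction_on' with
  | smul a ha x _ => exact ⟨(⟨a, ha⟩ : I) ⊗ₜ x, by simp⟩
  | add x _ y _ hx hy =>
    obtain ⟨z, rfl⟩ := hx
    obtain ⟨z', rfl⟩ := hy
    exact ⟨z + z', map_add _ _ _⟩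

theorem H0SurjMu_lTensor (I : Ideal S) {N : Type u} [AddCommGroup N] [Module S N] (d : M →ₗ[S] N)
    (z : I ⊗[S] M) : H0SurjMu I N (LinearMap.lTensor I d z) = d (H0SurjMu I M z) := by
  induction z with
  | zero => simp
  | tmul a m => simp
  | add x y hx hy => rw [map_add, map_add, map_add, map_add, hx, hy]

/-- the kernel of a base change along a surjective ring homomorphism `φ` is `ker φ • ⊤` -/
theorem H0Surj_mem_of_map_eq_zero (hφ : Function.Surjective φ) {g : M →ₛₗ[φ] M'} (hg : IsBC φ g)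
    {m : M} (hm : g m = 0) : m ∈ RingHom.ker φ • (⊤ : Submodule S M) := by
  letI := φ.toAlgebra
  letI := Module.compHom M' φ
  haveI : IsScalarTower S S' M' := IsScalarTower.of_algebraMap_smul fun _ _ => rfl
  have h : IsBaseChange S' (semiToLin φ g) := hg
  have h1 : (1 : S') ⊗ₜ[S] m = 0 := by
    apply h.equiv.injective
    rw [h.equiv_tmul, map_zero, one_smul]
    exact hm
  have hex : Function.Exact (Submodule.subtype (RingHom.ker φ)) (Algebra.linearMap S S') := by
    intro x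
    constructor
    · intro hx
      exact ⟨⟨x, hx⟩, rfl⟩
    · rintro ⟨y, rfl⟩
      exact y.2
  have hsurj : Function.Surjective (Algebra.linearMap S S') := hφ
  have hex2 := rTensor_exact M hex hsurj
  have h2 : LinearMap.rTensor M (Algebra.linearMap S S') ((1 : S) ⊗ₜ[S] m) = 0 := by
    rw [LinearMap.rTensor_tmul, Algebra.linearMap_apply, map_one, h1]
  obtain ⟨z, hz⟩ := (hex2 _).1 h2
  have h3 : m = H0SurjMu (RingHom.ker φ) M z := by
    rw [H0SurjMu, LinearMap.comp_apply, hz]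
    simp
  rw [h3]
  exact H0SurjMu_mem _ z

/-- elements of `ker φ • ⊤` are killed by `φ`-semilinear maps -/
theorem H0Surj_map_eq_zero (g : M →ₛₗ[φ] M') {m : M}
    (hm : m ∈ RingHom.ker φ • (⊤ : Submodule S M)) : g m = 0 := by
  induction hm using Submodule.smul_induction_on' with
  | smul a ha x _ =>
    rw [g.map_smulₛₗ, (RingHom.mem_ker).1 ha, zero_smul]
  | add x _ y _ hx hy => rw [map_add, hx, hy, add_zero]

/-- if the cokernel of `d` is flat then `range d ∩ I • ⊤ = d (I • ⊤)` -/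
theorem H0Surj_flat_chase {N : Type u} [AddCommGroup N] [Module S N] (d : M →ₗ[S] N)
    (hflat : Module.Flat S (N ⧸ LinearMap.range d)) (I : Ideal S) {q : N}
    (hq : q ∈ I • (⊤ : Submodule S N)) (hq' : q ∈ LinearMap.range d) :
    ∃ m ∈ I • (⊤ : Submodule S M), d m = q := by
  obtain ⟨z, rfl⟩ := H0SurjMu_exists I hq
  set π := (LinearMap.range d).mkQ with hπ
  have hinj : Function.Injective (H0SurjMu I (N ⧸ LinearMap.range d)) := by
    rw [H0SurjMu, LinearMap.coe_comp]
    exact (TensorProduct.lid S _).injective.comp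
      ((Module.Flat.iff_rTensor_injective').1 hflat I)
  have h0 : LinearMap.lTensor I π z = 0 := by
    apply hinj
    rw [H0SurjMu_lTensor, map_zero, hπ, Submodule.mkQ_apply, Submodule.Quotient.mk_eq_zero]
    exact hq'
  have hex : Function.Exact d π := by
    intro x
    rw [hπ, Submodule.mkQ_apply, Submodule.Quotient.mk_eq_zero]
    rfl
  have hex2 := lTensor_exact I hex (Submodule.mkQ_surjective _)
  obtain ⟨w, rfl⟩ := (hex2 _).1 h0
  exact ⟨H0SurjMu I M w, H0SurjMu_mem I w, (H0SurjMu_lTensor I d w).symm⟩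

end General

theorem P1Mod.Hom.IsBC.H0_surjective' {R k : Type u} [CommRing R] [CommRing k] {φ : R →+* k}
    (hφ : Function.Surjective φ) {P : P1Mod R} {P' : P1Mod k} {f : P1Mod.Hom φ P P'} (hf : f.IsBC)
    (hflat : Module.Flat R P.H1) (t : P'.H0) :
    ∃ γ : P.H0, f.f0 γ.1.1 = t.1.1 ∧ f.f1 γ.1.2 = t.1.2 := by
  obtain ⟨n0, hn0⟩ := H0Surj_surjective hφ hf.bc0 t.1.1
  obtain ⟨n1, hn1⟩ := H0Surj_surjective hφ hf.bc1 t.1.2
  have ht : P'.i0 t.1.1 - P'.i1 t.1.2 = 0 := by
    have := t.2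
    rwa [LinearMap.mem_ker, P1Mod.d_apply] at this
  have h1 : f.f01 (P.d (n0, n1)) = 0 := by
    rw [P1Mod.d_apply, map_sub, f.f_i0, f.f_i1, hn0, hn1, ht]
  have h2 := H0Surj_mem_of_map_eq_zero hφ hf.bc01 h1
  obtain ⟨m, hm, hdm⟩ := H0Surj_flat_chase P.d hflat (RingHom.ker φ) h2 ⟨_, rfl⟩
  have hm0 : f.f0 m.1 = 0 :=
    H0Surj_map_eq_zero (f.f0.comp (LinearMap.fst R P.P0 P.P1)) hm
  have hm1 : f.f1 m.2 = 0 :=
    H0Surj_map_eq_zero (f.f1.comp (LinearMap.snd R P.P0 P.P1)) hm
  refine ⟨⟨(n0, n1) - m, ?_⟩, ?_, ?_⟩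
  · rw [LinearMap.mem_ker, map_sub, hdm, sub_self]
  · show f.f0 (n0 - m.1) = _
    rw [map_sub, hm0, sub_zero, hn0]
  · show f.f1 (n1 - m.2) = _
    rw [map_sub, hm1, sub_zero, hn1]

end Fermat.Agent.S26
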