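/-
S26 / SS / Core : block SS (seesaw over the charts of `C`): aliases of SS-1..3 and the line bundle `ssN`
with its evaluation maps (statements helper26; proofs helper12, helper15, helper75, helper61).
-/
import Fermat.Agent.S26.Curve.Coh
import Fermat.Agent.S26.Curve.Fam
import Fermat.Agent.S26.SS.Flat
import Fermat.Agent.S26.SS.H0Surj
import Fermat.Agent.S26.SS.Ev

set_option autoImplicit false

open scoped TensorProduct

universe u

namespace Fermat.Agent.S26

/-! ### SS-1 : constant fibre dimension implies flat (pure algebra) -/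

-- `flat_of_fiber_const` : proved in `SS/Flat.lean` (imported)

/-! ### SS-2 : if `H¹` is flat then `H⁰` commutes with reduction modulo an ideal -/

theorem P1Mod.Hom.IsBC.H0_surjective {R k : Type u} [CommRing R] [CommRing k] {φ : R →+* k}
    (hφ : Function.Surjective φ) {P : P1Mod R} {P' : P1Mod k} {f : P1Mod.Hom φ P P'} (hf : f.IsBC)
    (hflat : Module.Flat R P.H1) (t : P'.H0) :
    ∃ γ : P.H0, f.f0 γ.1.1 = t.1.1 ∧ f.f1 γ.1.2 = t.1.2 :=
  P1Mod.Hom.IsBC.H0_surjective' hφ hf hflat t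

/-! ### SS-3 : evaluation of a generating section -/

theorem ss_ev_abs {S R S' k : Type u} [CommRing S] [CommRing R] [CommRing S'] [Field k]
    (σ : S →+* R) (μ : S →+* S') (φ : R →+* k) (σ' : S' →+* k) (hsq : σ'.comp μ = φ.comp σ)
    {N Λ N' Λ' : Type u} [AddCommGroup N] [Module S N] [AddCommGroup Λ] [Module R Λ]
    [AddCommGroup N'] [Module S' N'] [AddCommGroup Λ'] [Module k Λ']
    (ev : N →ₛₗ[σ] Λ) (hev : Submodule.span R (Set.range ev) = ⊤)
    (F : N →ₛₗ[μ] N') (hF : IsBC μ F) (e : Λ →ₛₗ[φ] Λ') (he : Submodule.span k (Set.range e) = ⊤)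
    (n : N) (hn : Submodule.span S' {F n} = ⊤) : Submodule.span k {e (ev n)} = ⊤ :=
  ss_ev_abs' σ μ φ σ' hsq ev hev F hF e he n hn

theorem isBC_injective_of_flat {S S' : Type u} [CommRing S] [CommRing S'] (μ : S →+* S')
    (hμ : Function.Injective μ) {N N' : Type u} [AddCommGroup N] [Module S N] [AddCommGroup N']
    [Module S' N'] [Module.Flat S N] (F : N →ₛₗ[μ] N') (hF : IsBC μ F) : Function.Injective F :=
  isBC_injective_of_flat' μ hμ F hF

variable {K : Type u} [Field K] [IsAlgClosed K] {C : Curve K}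

/-! ### SS-4 : the key theorem : see `SS/KeyA.lean` (`ss_flat'`, `ss_lift'`, `ss_generic'`) and
`SS/KeyB.lean` (`ss_key0'`, `ss_key1'`) -/

/-! ### SS-5 : the line bundle on `C × Spec R` attached to `a ∈ X(R)` and its evaluations -/

section Wiring

variable {X Y : PtF K} (𝓔 : LBun (X.prod Y)) (h : CPt C Y K)

/-- the line bundle `t ↦ 𝓔(a, h(t))` on `C × Spec R` -/
noncomputable def ssN {R : Type u} [CommRing R] [Algebra K R] (a : X.pt R) : CMod C R :=
  𝓔.pull ((CPt.cst C a).pair (h.base R))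

omit [IsAlgClosed K] in
theorem ssCore_pair_map {R R' : Type u} [CommRing R] [Algebra K R] [CommRing R'] [Algebra K R']
    (φ : R →ₐ[K] R') (a : X.pt R) {a' : X.pt R'} (ha : X.map φ a = a') :
    ((CPt.cst C a).pair (h.base R)).map φ = (CPt.cst C a').pair (h.base R') := by
  subst ha
  refine CPt.ext (Prod.ext ?_ ?_) (Prod.ext ?_ ?_) (Prod.ext ?_ ?_)
  · show X.map (C.m0 φ) (X.map _ a) = X.map _ (X.map φ a)
    rw [← X.map_comp, ← X.map_comp]
    congr 1
  · show Y.map (C.m0 φ) (Y.map (C.m0 (Algebra.ofId K R)) h.u0)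
      = Y.map (C.m0 (Algebra.ofId K R')) h.u0
    rw [← Y.map_comp]
    congr 1
    ext; simp
  · show X.map (C.m1 φ) (X.map _ a) = X.map _ (X.map φ a)
    rw [← X.map_comp, ← X.map_comp]
    congr 1
  · show Y.map (C.m1 φ) (Y.map (C.m1 (Algebra.ofId K R)) h.u1)
      = Y.map (C.m1 (Algebra.ofId K R')) h.u1
    rw [← Y.map_comp]
    congr 1
    ext; simp
  · show X.map (C.m01 φ) (X.map _ a) = X.map _ (X.map φ a)
    rw [← X.map_comp, ← X.map_comp]
    congr 1
  · show Y.map (C.m01 φ) (Y.map (C.m01 (Algebra.ofId K R)) h.u01)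
      = Y.map (C.m01 (Algebra.ofId K R')) h.u01
    rw [← Y.map_comp]
    congr 1
    ext; simp

omit [IsAlgClosed K] in
theorem ssCore_base_self : h.base K = h := by
  refine CPt.ext ?_ ?_ ?_
  · show Y.map (C.m0 (Algebra.ofId K K)) h.u0 = h.u0
    have : C.m0 (Algebra.ofId K K) = AlgHom.id K (C.S0 K) := by ext; simp
    rw [this, Y.map_id]
  · show Y.map (C.m1 (Algebra.ofId K K)) h.u1 = h.u1
    have : C.m1 (Algebra.ofId K K) = AlgHom.id K (C.S1 K) := by ext; simp
    rw [this, Y.map_id]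
  · show Y.map (C.m01 (Algebra.ofId K K)) h.u01 = h.u01
    have : C.m01 (Algebra.ofId K K) = AlgHom.id K (C.S01 K) := by ext; simp
    rw [this, Y.map_id]

omit [IsAlgClosed K] in
theorem ssCore_ev0 {R : Type u} [CommRing R] [Algebra K R] (a : X.pt R) (τ : C.B0 →ₐ[K] R)
    {y : Y.pt R} (hy : Y.map (Algebra.TensorProduct.productMap (Algebra.ofId K R) τ) h.u0 = y) :
    (X.prod Y).map (Algebra.TensorProduct.productMap (AlgHom.id K R) τ)
      ((CPt.cst C a).pair (h.base R)).u0 = PtF.pair a y := by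
  refine Prod.ext ?_ ?_
  · show X.map (Algebra.TensorProduct.productMap (AlgHom.id K R) τ) (X.map _ a) = a
    rw [← X.map_comp]
    have : (Algebra.TensorProduct.productMap (AlgHom.id K R) τ).comp
        (Algebra.TensorProduct.includeLeft : R →ₐ[K] C.S0 R) = AlgHom.id K R := by ext; simp
    rw [this, X.map_id]
  · show Y.map (Algebra.TensorProduct.productMap (AlgHom.id K R) τ)
      (Y.map (C.m0 (Algebra.ofId K R)) h.u0) = y
    rw [← Y.map_comp, ← hy]
    congr 1
    ext; simp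

omit [IsAlgClosed K] in
theorem ssCore_ev1 {R : Type u} [CommRing R] [Algebra K R] (a : X.pt R) (τ : C.B1 →ₐ[K] R)
    {y : Y.pt R} (hy : Y.map (Algebra.TensorProduct.productMap (Algebra.ofId K R) τ) h.u1 = y) :
    (X.prod Y).map (Algebra.TensorProduct.productMap (AlgHom.id K R) τ)
      ((CPt.cst C a).pair (h.base R)).u1 = PtF.pair a y := by
  refine Prod.ext ?_ ?_
  · show X.map (Algebra.TensorProduct.productMap (AlgHom.id K R) τ) (X.map _ a) = a
    rw [← X.map_comp]
    have : (Algebra.TensorProduct.productMap (AlgHom.id K R) τ).comp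
        (Algebra.TensorProduct.includeLeft : R →ₐ[K] C.S1 R) = AlgHom.id K R := by ext; simp
    rw [this, X.map_id]
  · show Y.map (Algebra.TensorProduct.productMap (AlgHom.id K R) τ)
      (Y.map (C.m1 (Algebra.ofId K R)) h.u1) = y
    rw [← Y.map_comp, ← hy]
    congr 1
    ext; simp

theorem ssN_fibre (htriv : ∀ a : X.pt K, Nonempty (CMod.Iso (𝓔.pull ((CPt.cst C a).pair h))
      (CMod.one C K))) {R : Type u} [CommRing R] [Algebra K R] (a : X.pt R) (s : R →ₐ[K] K) :
    Nonempty (CMod.Iso ((ssN 𝓔 h a).bc s) (CMod.one C K)) := by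
  have hp : ((CPt.cst C a).pair (h.base R)).map s = (CPt.cst C (X.map s a)).pair h := by
    rw [ssCore_pair_map h s a rfl, ssCore_base_self]
  obtain ⟨e⟩ := (CMod.bcHom_isPullback s (ssN 𝓔 h a)).unique (𝓔.pullHom_isPullback s _ hp)
  obtain ⟨e'⟩ := htriv (X.map s a)
  exact ⟨e.trans e'⟩

/-- the restriction of `ssN` along `φ : R → R'` -/
noncomputable def ssRes {R R' : Type u} [CommRing R] [Algebra K R] [CommRing R'] [Algebra K R']
    (φ : R →ₐ[K] R') (a : X.pt R) {a' : X.pt R'} (ha : X.map φ a = a') :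
    CMod.Hom φ (ssN 𝓔 h a) (ssN 𝓔 h a') :=
  𝓔.pullHom φ _ (ssCore_pair_map h φ a ha)

/-- evaluation along the section of `C × Spec R → Spec R` given by `τ : B0 → R` -/
noncomputable def ssEv0 {R : Type u} [CommRing R] [Algebra K R] (a : X.pt R) (τ : C.B0 →ₐ[K] R)
    {y : Y.pt R} (hy : Y.map (Algebra.TensorProduct.productMap (Algebra.ofId K R) τ) h.u0 = y) :
    (ssN 𝓔 h a).N0 →ₛₗ[(Algebra.TensorProduct.productMap (AlgHom.id K R) τ).toRingHom]
      𝓔.M (PtF.pair a y) :=
  𝓔.bc (Algebra.TensorProduct.productMap (AlgHom.id K R) τ) (ssCore_ev0 h a τ hy)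

noncomputable def ssEv1 {R : Type u} [CommRing R] [Algebra K R] (a : X.pt R) (τ : C.B1 →ₐ[K] R)
    {y : Y.pt R} (hy : Y.map (Algebra.TensorProduct.productMap (Algebra.ofId K R) τ) h.u1 = y) :
    (ssN 𝓔 h a).N1 →ₛₗ[(Algebra.TensorProduct.productMap (AlgHom.id K R) τ).toRingHom]
      𝓔.M (PtF.pair a y) :=
  𝓔.bc (Algebra.TensorProduct.productMap (AlgHom.id K R) τ) (ssCore_ev1 h a τ hy)

end Wiring

end Fermat.Agent.S26
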