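/-
S26 / SS / KeyA (package SS-4a) : `ss_flat'`, `ss_lift'`, `ss_generic'` (statements of `SS/Core.lean`, section Key).
-/
import Fermat.Agent.S26.SS.Core
import Fermat.Agent.S26.P1.BaseChange
import Fermat.Agent.S26.Alg.Semicont
import Fermat.Agent.S27.B.TensorDomain

set_option autoImplicit false

open scoped TensorProduct

universe u

namespace Fermat.Agent.S26

section KeyAAux

variable {K : Type u} [Field K] {C : Curve K} {R R' : Type u} [CommRing R] [Algebra K R]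
  [CommRing R'] [Algebra K R']

/-- the untwisted morphism of `P1Mod`s induced by a morphism of line bundles -/
noncomputable def KeyA_toP1 {φ : R →ₐ[K] R'} {N : CMod C R} {N' : CMod C R'}
    (f : CMod.Hom φ N N') : P1Mod.Hom φ.toRingHom N.toP1Mod N'.toP1Mod where
  f0 := (f.toP1 0).f0
  f1 := (f.toP1 0).f1
  f01 := (f.toP1 0).f01
  f0_x := (f.toP1 0).f0_x
  f1_y := (f.toP1 0).f1_y
  f01_x := (f.toP1 0).f01_x
  f_i0 := (f.toP1 0).f_i0
  f_i1 := fun p => f.comm1 p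

theorem KeyA_isBC_toP1 {φ : R →ₐ[K] R'} {N : CMod C R} {N' : CMod C R'}
    {f : CMod.Hom φ N N'} (h : f.IsPullback) : (KeyA_toP1 f).IsBC :=
  ⟨(h.isBC_toP1 0).bc0, (h.isBC_toP1 0).bc1, (h.isBC_toP1 0).bc01⟩

/-- every maximal ideal of a finitely generated algebra over an algebraically closed field is the kernel of a
`K`-point -/
theorem KeyA_exists_algHom_ker [IsAlgClosed K] [Algebra.FiniteType K R] (m : Ideal R)
    (hm : m.IsMaximal) : ∃ s : R →ₐ[K] K, RingHom.ker s.toRingHom = m := by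
  let _ : Field (R ⧸ m) := Ideal.Quotient.field m
  have : Algebra.FiniteType K (R ⧸ m) :=
    Algebra.FiniteType.of_surjective (Ideal.Quotient.mkₐ K m) (Ideal.Quotient.mkₐ_surjective K m)
  have : Module.Finite K (R ⧸ m) := finite_of_finite_type_of_isJacobsonRing K (R ⧸ m)
  have hbij : Function.Bijective (algebraMap K (R ⧸ m)) :=
    IsAlgClosed.algebraMap_bijective_of_isIntegral
  let e : K ≃ₐ[K] (R ⧸ m) := AlgEquiv.ofBijective (Algebra.ofId K (R ⧸ m)) hbij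
  refine ⟨e.symm.toAlgHom.comp (Ideal.Quotient.mkₐ K m), ?_⟩
  ext r
  rw [RingHom.mem_ker]
  show e.symm (Ideal.Quotient.mk m r) = 0 ↔ _
  rw [map_eq_zero_iff _ e.symm.injective, Ideal.Quotient.eq_zero_iff_mem]

theorem KeyA_span_symm_one {S M : Type*} [CommRing S] [AddCommGroup M] [Module S M]
    (e : M ≃ₗ[S] S) : Submodule.span S {e.symm 1} = ⊤ := by
  rw [eq_top_iff]
  intro m _
  rw [Submodule.mem_span_singleton]
  exact ⟨e m, by rw [← map_smul, smul_eq_mul, mul_one, e.symm_apply_apply]⟩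

theorem KeyA_map_injective {B : Type*} [CommRing B] [Algebra K B] (φ : R →ₐ[K] R')
    (hφ : Function.Injective φ) :
    Function.Injective (Algebra.TensorProduct.map φ (AlgHom.id K B)) :=
  TensorProduct.map_injective_of_flat_flat φ.toLinearMap (AlgHom.id K B).toLinearMap hφ
    Function.injective_id

end KeyAAux

variable {K : Type u} [Field K] [IsAlgClosed K] {C : Curve K}

section Key

variable {R : Type u} [CommRing R] [IsDomain R] [Algebra K R] [Algebra.FiniteType K R]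
  (𝓝 : CMod C R) (htriv : ∀ s : R →ₐ[K] K, Nonempty (CMod.Iso (𝓝.bc s) (CMod.one C K)))

include htriv in
theorem ss_flat' : Module.Flat R 𝓝.toP1Mod.H1 := by
  have hfin : Module.Finite R 𝓝.toP1Mod.H1 := CMod.finite_H1 𝓝
  refine flat_of_fiber_const R 𝓝.toP1Mod.H1 (CMod.one C K).toP1Mod.h1 ?_
  refine finrank_fiber_eq_of_forall_maximal K R 𝓝.toP1Mod.H1 _ ?_
  intro p hp
  obtain ⟨s, hs⟩ := KeyA_exists_algHom_ker (K := K) p.asIdeal hp
  obtain ⟨e⟩ := htriv s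
  have h1 := IsBC.finrank_eq s.toRingHom
    (KeyA_isBC_toP1 (CMod.bcHom_isPullback s 𝓝)).isBC_H1map p hs.symm
  rw [← h1]
  exact e.h1_eq

include htriv in
/-- every closed fibre has a nowhere vanishing section which lifts -/
theorem ss_lift' (s : R →ₐ[K] K) : ∃ γ : 𝓝.toP1Mod.H0,
    Submodule.span (C.S0 K) {(CMod.bcHom s 𝓝).f0 γ.1.1} = ⊤ ∧
      Submodule.span (C.S1 K) {(CMod.bcHom s 𝓝).f1 γ.1.2} = ⊤ := by
  obtain ⟨e⟩ := htriv s
  have hsurj : Function.Surjective s.toRingHom := fun c => ⟨algebraMap K R c, s.commutes c⟩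
  have ht : ((e.e0.symm (1 : C.S0 K), e.e1.symm (1 : C.S1 K)) :
      (𝓝.bc s).toP1Mod.P0 × (𝓝.bc s).toP1Mod.P1) ∈ (𝓝.bc s).toP1Mod.H0 := by
    rw [LinearMap.mem_ker, P1Mod.d_apply, sub_eq_zero]
    have a0 := e.symm.comm0 (1 : C.S0 K)
    have a1 := e.symm.comm1 (1 : C.S1 K)
    have b : (CMod.one C K).r0 (1 : C.S0 K) = (CMod.one C K).r1 (1 : C.S1 K) := by
      show (C.J0 K) 1 = (C.J1 K) 1
      rw [map_one, map_one]
    exact a0.symm.trans ((congrArg e.symm.e01 b).trans a1)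
  obtain ⟨γ, h0, h1⟩ := P1Mod.Hom.IsBC.H0_surjective hsurj
    (KeyA_isBC_toP1 (CMod.bcHom_isPullback s 𝓝)) (ss_flat' 𝓝 htriv) ⟨_, ht⟩
  refine ⟨γ, ?_, ?_⟩
  · have h0' : (CMod.bcHom s 𝓝).f0 γ.1.1 = e.e0.symm (1 : C.S0 K) := h0
    rw [h0']
    exact KeyA_span_symm_one e.e0
  · have h1' : (CMod.bcHom s 𝓝).f1 γ.1.2 = e.e1.symm (1 : C.S1 K) := h1
    rw [h1']
    exact KeyA_span_symm_one e.e1

include htriv in
/-- a nonzero section generates the generic fibre -/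
theorem ss_generic' (γ : 𝓝.toP1Mod.H0) (hγ : γ ≠ 0) :
    Submodule.span (C.S0 (FractionRing R))
        {(CMod.bcHom (IsScalarTower.toAlgHom K R (FractionRing R)) 𝓝).f0 γ.1.1} = ⊤ ∧
      Submodule.span (C.S1 (FractionRing R))
        {(CMod.bcHom (IsScalarTower.toAlgHom K R (FractionRing R)) 𝓝).f1 γ.1.2} = ⊤ := by
  set φ := IsScalarTower.toAlgHom K R (FractionRing R) with hφ
  have hpb := CMod.bcHom_isPullback φ 𝓝
  have hφinj : Function.Injective φ := IsFractionRing.injective R (FractionRing R)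
  have hf0 : Function.Injective (CMod.bcHom φ 𝓝).f0 := by
    have := 𝓝.inv0
    exact isBC_injective_of_flat _ (KeyA_map_injective φ hφinj) _ hpb.isBC0
  have hf1 : Function.Injective (CMod.bcHom φ 𝓝).f1 := by
    have := 𝓝.inv1
    exact isBC_injective_of_flat _ (KeyA_map_injective φ hφinj) _ hpb.isBC1
  obtain ⟨s⟩ := Fermat.Agent.S27.td_exists_algHom K R
  obtain ⟨e⟩ := htriv s
  have hdeg : (𝓝.bc φ).deg = 0 := by
    rw [CMod.deg_const 𝓝 φ s (𝓝.bc φ) (𝓝.bc s) (CMod.bcHom φ 𝓝) (CMod.bcHom s 𝓝) hpb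
      (CMod.bcHom_isPullback s 𝓝), e.deg_eq, CMod.deg_one]
  have hmem : (((CMod.bcHom φ 𝓝).f0 γ.1.1, (CMod.bcHom φ 𝓝).f1 γ.1.2) :
      (𝓝.bc φ).toP1Mod.P0 × (𝓝.bc φ).toP1Mod.P1) ∈ (𝓝.bc φ).toP1Mod.H0 := by
    rw [LinearMap.mem_ker, P1Mod.d_apply, sub_eq_zero]
    exact ((CMod.bcHom φ 𝓝).comm0 _).symm.trans
      ((congrArg (CMod.bcHom φ 𝓝).f01 (CMod.r0_eq_r1_of_mem_H0 𝓝 γ)).trans
        ((CMod.bcHom φ 𝓝).comm1 _))
  have hne : (⟨_, hmem⟩ : (𝓝.bc φ).toP1Mod.H0) ≠ 0 := by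
    intro h0
    apply hγ
    have h1 := congrArg Subtype.val h0
    have h2 : (CMod.bcHom φ 𝓝).f0 γ.1.1 = 0 := congrArg Prod.fst h1
    have h3 : (CMod.bcHom φ 𝓝).f1 γ.1.2 = 0 := congrArg Prod.snd h1
    apply Subtype.ext
    apply Prod.ext
    · exact hf0 (h2.trans (map_zero _).symm)
    · exact hf1 (h3.trans (map_zero _).symm)
  exact CMod.generates_of_deg_eq_zero (𝓝.bc φ) hdeg ⟨_, hmem⟩ hne

end Key

end Fermat.Agent.S26
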