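/-
S26 / SS / KeyB (package SS-4b) : `ss_key0'`, `ss_key1'` (statements of `SS/Core.lean`, section Key).
Uses `ss_ev_abs'` (SS/Ev), `ss_lift'`, `ss_generic'` (SS/KeyA).
-/
import Fermat.Agent.S26.SS.Core
import Fermat.Agent.S26.SS.Ev
import Fermat.Agent.S26.SS.KeyA
import Fermat.Agent.S26.Curve.HomOps
import Fermat.Agent.S27.B.TensorDomain

set_option autoImplicit false

open scoped TensorProduct

universe u

namespace Fermat.Agent.S26

/-- Nakayama over a finitely generated algebra over an algebraically closed field: a submodule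
which is everything modulo every closed point is everything. -/
theorem KeyB_nakayama {K R Λ : Type u} [Field K] [IsAlgClosed K] [CommRing R] [Algebra K R]
    [Algebra.FiniteType K R] [AddCommGroup Λ] [Module R Λ] [Module.Finite R Λ] (W : Submodule R Λ)
    (h : ∀ s : R →ₐ[K] K, W ⊔ (RingHom.ker s) • (⊤ : Submodule R Λ) = ⊤) : W = ⊤ := by
  by_contra hW
  have hnt : Nontrivial (Λ ⧸ W) := Submodule.Quotient.nontrivial_iff.2 hW
  have hann : Module.annihilator R (Λ ⧸ W) ≠ ⊤ := by
    intro htop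
    have h1 : (1 : R) ∈ Module.annihilator R (Λ ⧸ W) := htop ▸ Submodule.mem_top
    rw [Module.mem_annihilator] at h1
    obtain ⟨x, y, hxy⟩ := hnt
    exact hxy (by rw [← one_smul R x, ← one_smul R y, h1, h1])
  obtain ⟨𝔪, hmax, hle⟩ := Ideal.exists_le_maximal _ hann
  have : Algebra.FiniteType K (R ⧸ 𝔪) :=
    Algebra.FiniteType.of_surjective (Ideal.Quotient.mkₐ K 𝔪) (Ideal.Quotient.mkₐ_surjective K 𝔪)
  have : Nontrivial (R ⧸ 𝔪) := Ideal.Quotient.nontrivial_iff.2 hmax.ne_top
  obtain ⟨t⟩ := S27.td_exists_algHom K (R ⧸ 𝔪)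
  let s : R →ₐ[K] K := t.comp (Ideal.Quotient.mkₐ K 𝔪)
  have hker : RingHom.ker s = 𝔪 := by
    symm
    refine hmax.eq_of_le (RingHom.ker_ne_top _) ?_
    intro r hr
    rw [RingHom.mem_ker]
    show t (Ideal.Quotient.mk 𝔪 r) = 0
    rw [Ideal.Quotient.eq_zero_iff_mem.2 hr, map_zero]
  have h2 := congrArg (Submodule.map W.mkQ) (h s)
  rw [Submodule.map_sup, Submodule.map_smul'', Submodule.map_top, Submodule.range_mkQ, hker,
    Submodule.mkQ_map_self, bot_sup_eq] at h2
  obtain ⟨r, hr1, hr2⟩ := Submodule.exists_sub_one_mem_and_smul_eq_zero_of_fg_of_le_smul 𝔪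
    (⊤ : Submodule R (Λ ⧸ W)) Module.Finite.fg_top h2.ge
  have hr3 : r ∈ 𝔪 := hle (Module.mem_annihilator.2 fun q => hr2 q Submodule.mem_top)
  apply hmax.ne_top
  rw [Ideal.eq_top_iff_one]
  have := 𝔪.sub_mem hr3 hr1
  simpa using this

/-- closed point version of `ss_ev_abs` -/
theorem KeyB_closed {K S R S' : Type u} [Field K] [CommRing S] [CommRing R] [CommRing S']
    [Algebra K R] (σ : S →+* R) (μ : S →+* S') (s : R →ₐ[K] K) (σ' : S' →+* K)
    (hsq : σ'.comp μ = s.toRingHom.comp σ)
    {N Λ N' : Type u} [AddCommGroup N] [Module S N] [AddCommGroup Λ] [Module R Λ]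
    [AddCommGroup N'] [Module S' N']
    (ev : N →ₛₗ[σ] Λ) (hev : Submodule.span R (Set.range ev) = ⊤)
    (F : N →ₛₗ[μ] N') (hF : IsBC μ F)
    (n : N) (hn : Submodule.span S' {F n} = ⊤) (x : Λ) :
    ∃ r : R, x - r • ev n ∈ (RingHom.ker s) • (⊤ : Submodule R Λ) := by
  set I : Submodule R Λ := (RingHom.ker s) • (⊤ : Submodule R Λ) with hI
  let _ : Module K (Λ ⧸ I) := Module.compHom _ (algebraMap K R)
  have hsm : ∀ (r : R) (m : Λ), I.mkQ (r • m) = (s r) • I.mkQ m := by
    intro r m
    show I.mkQ (r • m) = algebraMap K R (s r) • I.mkQ m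
    rw [← map_smul, ← sub_eq_zero, ← map_sub, ← sub_smul]
    show Submodule.Quotient.mk _ = 0
    rw [Submodule.Quotient.mk_eq_zero]
    refine Submodule.smul_mem_smul ?_ Submodule.mem_top
    rw [RingHom.mem_ker, map_sub, AlgHom.commutes]
    simp
  let e : Λ →ₛₗ[s.toRingHom] (Λ ⧸ I) :=
    { toFun := I.mkQ
      map_add' := map_add _
      map_smul' := hsm }
  have he : Submodule.span K (Set.range e) = ⊤ := by
    rw [eq_top_iff]
    intro q _
    obtain ⟨m, rfl⟩ := I.mkQ_surjective q
    exact Submodule.subset_span ⟨m, rfl⟩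
  have key := ss_ev_abs' σ μ s.toRingHom σ' hsq ev hev F hF e he n hn
  have hx : e x ∈ Submodule.span K {e (ev n)} := key ▸ Submodule.mem_top
  obtain ⟨c, hc⟩ := Submodule.mem_span_singleton.1 hx
  refine ⟨algebraMap K R c, ?_⟩
  rw [← Submodule.Quotient.mk_eq_zero, Submodule.Quotient.mk_sub, sub_eq_zero]
  exact hc.symm

/-- generic point version of `ss_ev_abs` -/
theorem KeyB_generic {S R S' : Type u} [CommRing S] [CommRing R] [IsDomain R] [CommRing S']
    (σ : S →+* R) (μ : S →+* S') (σ' : S' →+* FractionRing R)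
    (hsq : σ'.comp μ = (algebraMap R (FractionRing R)).comp σ)
    {N Λ N' : Type u} [AddCommGroup N] [Module S N] [AddCommGroup Λ] [Module R Λ]
    [Module.Invertible R Λ] [AddCommGroup N'] [Module S' N']
    (ev : N →ₛₗ[σ] Λ) (hev : Submodule.span R (Set.range ev) = ⊤)
    (F : N →ₛₗ[μ] N') (hF : IsBC μ F)
    (n : N) (hn : Submodule.span S' {F n} = ⊤) : ev n ≠ 0 := by
  intro h0
  let e : Λ →ₛₗ[algebraMap R (FractionRing R)] (FractionRing R ⊗[R] Λ) :=
    { toFun := fun m => 1 ⊗ₜ m
      map_add' := fun a b => TensorProduct.tmul_add _ a b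
      map_smul' := fun r m => by
        show (1 : FractionRing R) ⊗ₜ[R] (r • m) = algebraMap R (FractionRing R) r • (1 ⊗ₜ[R] m)
        rw [TensorProduct.tmul_smul, algebraMap_smul] }
  have he : Submodule.span (FractionRing R) (Set.range e) = ⊤ := by
    rw [eq_top_iff]
    intro q _
    induction q using TensorProduct.induction_on with
    | zero => exact Submodule.zero_mem _
    | add a b ha hb => exact Submodule.add_mem _ (ha Submodule.mem_top) (hb Submodule.mem_top)
    | tmul c m =>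
      have : c ⊗ₜ[R] m = c • e m := by
        show c ⊗ₜ[R] m = c • ((1 : FractionRing R) ⊗ₜ[R] m)
        rw [TensorProduct.smul_tmul', smul_eq_mul, mul_one]
      rw [this]
      exact Submodule.smul_mem _ _ (Submodule.subset_span ⟨m, rfl⟩)
  have key := ss_ev_abs' σ μ (algebraMap R (FractionRing R)) σ' hsq ev hev F hF e he n hn
  rw [h0, map_zero, Submodule.span_zero_singleton] at key
  have hsub : Subsingleton (FractionRing R ⊗[R] Λ) :=
    ⟨fun a b => by
      have ha : a ∈ (⊥ : Submodule (FractionRing R) (FractionRing R ⊗[R] Λ)) :=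
        key ▸ Submodule.mem_top
      have hb : b ∈ (⊥ : Submodule (FractionRing R) (FractionRing R ⊗[R] Λ)) :=
        key ▸ Submodule.mem_top
      rw [(Submodule.mem_bot _).1 ha, (Submodule.mem_bot _).1 hb]⟩
  have hinv : Module.Invertible (FractionRing R) (FractionRing R ⊗[R] Λ) := inferInstance
  have hf : FaithfulSMul (FractionRing R) (FractionRing R ⊗[R] Λ) := inferInstance
  exact one_ne_zero (hf.eq_of_smul_eq_smul (m₁ := (1 : FractionRing R)) (m₂ := 0)
    fun a => Subsingleton.elim _ _)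

/-- abstract assembly -/
theorem KeyB_bijective {K R Λ H : Type u} [Field K] [IsAlgClosed K] [CommRing R] [Algebra K R]
    [Algebra.FiniteType K R] [AddCommGroup Λ] [Module R Λ] [Module.Finite R Λ]
    [AddCommGroup H] [Module R H] (E : H →ₗ[R] Λ) (hinj : ∀ γ : H, γ ≠ 0 → E γ ≠ 0)
    (hsurj : ∀ s : R →ₐ[K] K, ∃ γ : H, ∀ x : Λ, ∃ r : R,
      x - r • E γ ∈ (RingHom.ker s) • (⊤ : Submodule R Λ)) : Function.Bijective E := by
  refine ⟨?_, ?_⟩
  · rw [injective_iff_map_eq_zero]
    intro γ hγ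
    by_contra h
    exact hinj γ h hγ
  · rw [← LinearMap.range_eq_top]
    refine KeyB_nakayama (K := K) _ fun s => ?_
    rw [eq_top_iff]
    intro x _
    obtain ⟨γ, hγ⟩ := hsurj s
    obtain ⟨r, hr⟩ := hγ x
    have : x = r • E γ + (x - r • E γ) := by abel
    rw [this]
    exact Submodule.add_mem_sup (Submodule.smul_mem _ _ ⟨γ, rfl⟩) hr

variable {K : Type u} [Field K] [IsAlgClosed K] {C : Curve K}

section Key

variable {R : Type u} [CommRing R] [IsDomain R] [Algebra K R] [Algebra.FiniteType K R]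
  (𝓝 : CMod C R) (htriv : ∀ s : R →ₐ[K] K, Nonempty (CMod.Iso (𝓝.bc s) (CMod.one C K)))

include htriv in
theorem ss_key0' (τ : C.B0 →ₐ[K] R) (Λ : Type u) [AddCommGroup Λ] [Module R Λ]
    [Module.Invertible R Λ]
    (ev : 𝓝.N0 →ₛₗ[(Algebra.TensorProduct.productMap (AlgHom.id K R) τ).toRingHom] Λ)
    (hev : Submodule.span R (Set.range ev) = ⊤) :
    Function.Bijective (fun γ : 𝓝.toP1Mod.H0 => ev γ.1.1) := by
  let E : 𝓝.toP1Mod.H0 →ₗ[R] Λ :=
    { toFun := fun γ => ev γ.1.1
      map_add' := fun a b => ev.map_add a.1.1 b.1.1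
      map_smul' := fun r a => by
        refine (ev.map_smulₛₗ (algebraMap R (C.S0 R) r) a.1.1).trans ?_
        congr 1
        simp [Algebra.TensorProduct.algebraMap_apply] }
  refine KeyB_bijective (K := K) E ?_ ?_
  · intro γ hγ
    refine KeyB_generic _ (C.m0 (IsScalarTower.toAlgHom K R (FractionRing R))).toRingHom
      (Algebra.TensorProduct.productMap (AlgHom.id K (FractionRing R))
        ((IsScalarTower.toAlgHom K R (FractionRing R)).comp τ)).toRingHom ?_ ev hev
      (CMod.bcHom (IsScalarTower.toAlgHom K R (FractionRing R)) 𝓝).f0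
      (CMod.bcHom_isPullback _ 𝓝).isBC0 γ.1.1 (ss_generic' 𝓝 htriv γ hγ).1
    have : (Algebra.TensorProduct.productMap (AlgHom.id K (FractionRing R))
        ((IsScalarTower.toAlgHom K R (FractionRing R)).comp τ)).comp
          (C.m0 (IsScalarTower.toAlgHom K R (FractionRing R))) =
        (IsScalarTower.toAlgHom K R (FractionRing R)).comp
          (Algebra.TensorProduct.productMap (AlgHom.id K R) τ) := by
      ext <;> simp
    exact congrArg AlgHom.toRingHom this
  · intro s
    obtain ⟨γ, hγ, -⟩ := ss_lift' 𝓝 htriv s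
    refine ⟨γ, fun x => ?_⟩
    refine KeyB_closed _ (C.m0 s).toRingHom s
      (Algebra.TensorProduct.productMap (AlgHom.id K K) (s.comp τ)).toRingHom ?_ ev hev
      (CMod.bcHom s 𝓝).f0 (CMod.bcHom_isPullback _ 𝓝).isBC0 γ.1.1 hγ x
    have : (Algebra.TensorProduct.productMap (AlgHom.id K K) (s.comp τ)).comp (C.m0 s) =
        s.comp (Algebra.TensorProduct.productMap (AlgHom.id K R) τ) := by
      ext <;> simp
    exact congrArg AlgHom.toRingHom this

include htriv in
theorem ss_key1' (τ : C.B1 →ₐ[K] R) (Λ : Type u) [AddCommGroup Λ] [Module R Λ]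
    [Module.Invertible R Λ]
    (ev : 𝓝.N1 →ₛₗ[(Algebra.TensorProduct.productMap (AlgHom.id K R) τ).toRingHom] Λ)
    (hev : Submodule.span R (Set.range ev) = ⊤) :
    Function.Bijective (fun γ : 𝓝.toP1Mod.H0 => ev γ.1.2) := by
  let E : 𝓝.toP1Mod.H0 →ₗ[R] Λ :=
    { toFun := fun γ => ev γ.1.2
      map_add' := fun a b => ev.map_add a.1.2 b.1.2
      map_smul' := fun r a => by
        refine (ev.map_smulₛₗ (algebraMap R (C.S1 R) r) a.1.2).trans ?_
        congr 1
        simp [Algebra.TensorProduct.algebraMap_apply] }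
  refine KeyB_bijective (K := K) E ?_ ?_
  · intro γ hγ
    refine KeyB_generic _ (C.m1 (IsScalarTower.toAlgHom K R (FractionRing R))).toRingHom
      (Algebra.TensorProduct.productMap (AlgHom.id K (FractionRing R))
        ((IsScalarTower.toAlgHom K R (FractionRing R)).comp τ)).toRingHom ?_ ev hev
      (CMod.bcHom (IsScalarTower.toAlgHom K R (FractionRing R)) 𝓝).f1
      (CMod.bcHom_isPullback _ 𝓝).isBC1 γ.1.2 (ss_generic' 𝓝 htriv γ hγ).2
    have : (Algebra.TensorProduct.productMap (AlgHom.id K (FractionRing R))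
        ((IsScalarTower.toAlgHom K R (FractionRing R)).comp τ)).comp
          (C.m1 (IsScalarTower.toAlgHom K R (FractionRing R))) =
        (IsScalarTower.toAlgHom K R (FractionRing R)).comp
          (Algebra.TensorProduct.productMap (AlgHom.id K R) τ) := by
      ext <;> simp
    exact congrArg AlgHom.toRingHom this
  · intro s
    obtain ⟨γ, -, hγ⟩ := ss_lift' 𝓝 htriv s
    refine ⟨γ, fun x => ?_⟩
    refine KeyB_closed _ (C.m1 s).toRingHom s
      (Algebra.TensorProduct.productMap (AlgHom.id K K) (s.comp τ)).toRingHom ?_ ev hev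
      (CMod.bcHom s 𝓝).f1 (CMod.bcHom_isPullback _ 𝓝).isBC1 γ.1.2 hγ x
    have : (Algebra.TensorProduct.productMap (AlgHom.id K K) (s.comp τ)).comp (C.m1 s) =
        s.comp (Algebra.TensorProduct.productMap (AlgHom.id K R) τ) := by
      ext <;> simp
    exact congrArg AlgHom.toRingHom this

end Key

end Fermat.Agent.S26
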