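/-
S26 / SS / Wire : block SS, naturality of the evaluation maps (proofs: helper45, package SS-6) and the
abstract gluing lemma.  The final assembly `seesaw'` is in `SS/Main.lean`.
-/
import Fermat.Agent.S26.SS.Core

set_option autoImplicit false

open scoped TensorProduct

universe u

namespace Fermat.Agent.S26

variable {K : Type u} [Field K] [IsAlgClosed K] {C : Curve K}

/-- the Prop hole of `CMod.Hom.mapH0` -/
theorem CMod.Hom.mapH0_mem {R R' : Type u} [CommRing R] [Algebra K R] [CommRing R'] [Algebra K R']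
    {φ : R →ₐ[K] R'} {N : CMod C R} {N' : CMod C R'} (F : CMod.Hom φ N N') (γ : N.toP1Mod.H0) :
    ((F.f0 γ.1.1, F.f1 γ.1.2) : N'.toP1Mod.P0 × N'.toP1Mod.P1) ∈ N'.toP1Mod.H0 := by
  have h := N.r0_eq_r1_of_mem_H0 γ
  show N'.toP1Mod.d (F.f0 γ.1.1, F.f1 γ.1.2) = 0
  rw [P1Mod.d_apply, sub_eq_zero]
  exact (F.comm0 _).symm.trans ((congrArg F.f01 h).trans (F.comm1 _))

/-- the map induced on global sections by a morphism over `φ` -/
def CMod.Hom.mapH0 {R R' : Type u} [CommRing R] [Algebra K R] [CommRing R'] [Algebra K R']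
    {φ : R →ₐ[K] R'} {N : CMod C R} {N' : CMod C R'} (F : CMod.Hom φ N N') (γ : N.toP1Mod.H0) :
    N'.toP1Mod.H0 :=
  ⟨(F.f0 γ.1.1, F.f1 γ.1.2), F.mapH0_mem γ⟩

variable {X Y : PtF K} (𝓔 : LBun (X.prod Y)) (h : CPt C Y K)

/-! ### SS-6 : naturality -/

section Nat

variable {R R' : Type u} [CommRing R] [Algebra K R] [CommRing R'] [Algebra K R']

theorem ssEv0_smul (a : X.pt R) (τ : C.B0 →ₐ[K] R) {y : Y.pt R}
    (hy : Y.map (Algebra.TensorProduct.productMap (Algebra.ofId K R) τ) h.u0 = y) (r : R)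
    (γ : (ssN 𝓔 h a).toP1Mod.H0) :
    ssEv0 𝓔 h a τ hy (r • γ).1.1 = r • ssEv0 𝓔 h a τ hy γ.1.1 := by
  show ssEv0 𝓔 h a τ hy (algebraMap R (C.S0 R) r • (show (ssN 𝓔 h a).N0 from γ.1.1)) = _
  rw [(ssEv0 𝓔 h a τ hy).map_smulₛₗ]
  congr 1
  simp [Algebra.TensorProduct.algebraMap_apply]

theorem ssEv1_smul (a : X.pt R) (τ : C.B1 →ₐ[K] R) {y : Y.pt R}
    (hy : Y.map (Algebra.TensorProduct.productMap (Algebra.ofId K R) τ) h.u1 = y) (r : R)
    (γ : (ssN 𝓔 h a).toP1Mod.H0) :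
    ssEv1 𝓔 h a τ hy (r • γ).1.2 = r • ssEv1 𝓔 h a τ hy γ.1.2 := by
  show ssEv1 𝓔 h a τ hy (algebraMap R (C.S1 R) r • (show (ssN 𝓔 h a).N1 from γ.1.2)) = _
  rw [(ssEv1 𝓔 h a τ hy).map_smulₛₗ]
  congr 1
  simp [Algebra.TensorProduct.algebraMap_apply]

theorem ssEv0_span (a : X.pt R) (τ : C.B0 →ₐ[K] R) {y : Y.pt R}
    (hy : Y.map (Algebra.TensorProduct.productMap (Algebra.ofId K R) τ) h.u0 = y) :
    Submodule.span R (Set.range (ssEv0 𝓔 h a τ hy)) = ⊤ :=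
  𝓔.bc_span _ _

theorem ssEv1_span (a : X.pt R) (τ : C.B1 →ₐ[K] R) {y : Y.pt R}
    (hy : Y.map (Algebra.TensorProduct.productMap (Algebra.ofId K R) τ) h.u1 = y) :
    Submodule.span R (Set.range (ssEv1 𝓔 h a τ hy)) = ⊤ :=
  𝓔.bc_span _ _

theorem ssEv0_nat (φ : R →ₐ[K] R') (a : X.pt R) {a' : X.pt R'} (ha : X.map φ a = a')
    (τ : C.B0 →ₐ[K] R) {y : Y.pt R}
    (hy : Y.map (Algebra.TensorProduct.productMap (Algebra.ofId K R) τ) h.u0 = y) {y' : Y.pt R'}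
    (hy' : Y.map (Algebra.TensorProduct.productMap (Algebra.ofId K R') (φ.comp τ)) h.u0 = y')
    (hp : (X.prod Y).map φ (PtF.pair a y) = PtF.pair a' y') (n : (ssN 𝓔 h a).N0) :
    𝓔.bc φ hp (ssEv0 𝓔 h a τ hy n) = ssEv0 𝓔 h a' (φ.comp τ) hy' ((ssRes 𝓔 h φ a ha).f0 n) :=
  𝓔.Fam_bc_square (Algebra.TensorProduct.productMap (AlgHom.id K R) τ) φ (C.m0 φ)
    (Algebra.TensorProduct.productMap (AlgHom.id K R') (φ.comp τ)) (by ext <;> simp) _ _ _ _ n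

theorem ssEv1_nat (φ : R →ₐ[K] R') (a : X.pt R) {a' : X.pt R'} (ha : X.map φ a = a')
    (τ : C.B1 →ₐ[K] R) {y : Y.pt R}
    (hy : Y.map (Algebra.TensorProduct.productMap (Algebra.ofId K R) τ) h.u1 = y) {y' : Y.pt R'}
    (hy' : Y.map (Algebra.TensorProduct.productMap (Algebra.ofId K R') (φ.comp τ)) h.u1 = y')
    (hp : (X.prod Y).map φ (PtF.pair a y) = PtF.pair a' y') (n : (ssN 𝓔 h a).N1) :
    𝓔.bc φ hp (ssEv1 𝓔 h a τ hy n) = ssEv1 𝓔 h a' (φ.comp τ) hy' ((ssRes 𝓔 h φ a ha).f1 n) :=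
  𝓔.Fam_bc_square (Algebra.TensorProduct.productMap (AlgHom.id K R) τ) φ (C.m1 φ)
    (Algebra.TensorProduct.productMap (AlgHom.id K R') (φ.comp τ)) (by ext <;> simp) _ _ _ _ n

/-- the point of `X × Y` over the overlap evaluates to `(a, y)` -/
theorem Nat_pt01 (a : X.pt R) (τ : C.B01 →ₐ[K] R) {y : Y.pt R}
    (hy0 : Y.map (Algebra.TensorProduct.productMap (Algebra.ofId K R) (τ.comp C.j0)) h.u0 = y) :
    (X.prod Y).map (Algebra.TensorProduct.productMap (AlgHom.id K R) τ)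
      ((CPt.cst C a).pair (h.base R)).u01 = PtF.pair a y := by
  refine Prod.ext ?_ ?_
  · show X.map _ (X.map (Algebra.TensorProduct.includeLeft : R →ₐ[K] C.S01 R) a) = a
    rw [← X.map_comp]
    have : (Algebra.TensorProduct.productMap (AlgHom.id K R) τ).comp
        (Algebra.TensorProduct.includeLeft : R →ₐ[K] C.S01 R) = AlgHom.id K R := by
      ext; simp
    rw [this, X.map_id]
  · show Y.map _ (Y.map (C.m01 (Algebra.ofId K R)) h.u01) = y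
    rw [← hy0, ← h.h0, ← Y.map_comp, ← Y.map_comp]
    congr 1
    ext <;> simp

/-- on global sections the evaluations through the two charts agree -/
theorem ssEv0_eq_ssEv1 (a : X.pt R) (τ : C.B01 →ₐ[K] R) {y : Y.pt R}
    (hy0 : Y.map (Algebra.TensorProduct.productMap (Algebra.ofId K R) (τ.comp C.j0)) h.u0 = y)
    (hy1 : Y.map (Algebra.TensorProduct.productMap (Algebra.ofId K R) (τ.comp C.j1)) h.u1 = y)
    (γ : (ssN 𝓔 h a).toP1Mod.H0) :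
    ssEv0 𝓔 h a (τ.comp C.j0) hy0 γ.1.1 = ssEv1 𝓔 h a (τ.comp C.j1) hy1 γ.1.2 := by
  have hγ := (ssN 𝓔 h a).r0_eq_r1_of_mem_H0 γ
  have H := Nat_pt01 (X := X) h a τ hy0
  have e0 : ∀ n : (ssN 𝓔 h a).N0, ssEv0 𝓔 h a (τ.comp C.j0) hy0 n
      = 𝓔.bc (Algebra.TensorProduct.productMap (AlgHom.id K R) τ) H ((ssN 𝓔 h a).r0 n) := by
    intro n
    refine Eq.trans ?_ (𝓔.bc_comp (Algebra.TensorProduct.productMap (AlgHom.id K R) τ) (C.J0 R)
      ((CPt.cst C a).pair (h.base R)).h0 H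
      (by rw [(X.prod Y).map_comp, ((CPt.cst C a).pair (h.base R)).h0, H]) n).symm
    exact 𝓔.Fam_bc_congr (by ext <;> simp) _ _ n
  have e1 : ∀ n : (ssN 𝓔 h a).N1, ssEv1 𝓔 h a (τ.comp C.j1) hy1 n
      = 𝓔.bc (Algebra.TensorProduct.productMap (AlgHom.id K R) τ) H ((ssN 𝓔 h a).r1 n) := by
    intro n
    refine Eq.trans ?_ (𝓔.bc_comp (Algebra.TensorProduct.productMap (AlgHom.id K R) τ) (C.J1 R)
      ((CPt.cst C a).pair (h.base R)).h1 H
      (by rw [(X.prod Y).map_comp, ((CPt.cst C a).pair (h.base R)).h1, H]) n).symm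
    exact 𝓔.Fam_bc_congr (by ext <;> simp) _ _ n
  exact (e0 _).trans ((congrArg _ hγ).trans (e1 _).symm)

end Nat

/-! ### SS-7 : assembly -/

/-- abstract gluing: three pairs of bijections compatible with restrictions give an isomorphism -/
theorem ss_glue {N N' : CMod C K} {G0 G1 G01 : Type u} (ρ0 : G0 → G01) (ρ1 : G1 → G01)
    [AddCommGroup G0] [Module (C.S0 K) G0] [AddCommGroup G1] [Module (C.S1 K) G1]
    [AddCommGroup G01] [Module (C.S01 K) G01]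
    (e0 : G0 ≃ₗ[C.S0 K] N.N0) (e1 : G1 ≃ₗ[C.S1 K] N.N1) (e01 : G01 ≃ₗ[C.S01 K] N.N01)
    (e0' : G0 ≃ₗ[C.S0 K] N'.N0) (e1' : G1 ≃ₗ[C.S1 K] N'.N1) (e01' : G01 ≃ₗ[C.S01 K] N'.N01)
    (h0 : ∀ γ, N.r0 (e0 γ) = e01 (ρ0 γ)) (h1 : ∀ γ, N.r1 (e1 γ) = e01 (ρ1 γ))
    (h0' : ∀ γ, N'.r0 (e0' γ) = e01' (ρ0 γ)) (h1' : ∀ γ, N'.r1 (e1' γ) = e01' (ρ1 γ)) :
    Nonempty (CMod.Iso N N') :=
  ⟨{ e0 := e0.symm.trans e0'
     e1 := e1.symm.trans e1'
     e01 := e01.symm.trans e01'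
     comm0 := fun n => by
       obtain ⟨γ, rfl⟩ := e0.surjective n
       show e01' (e01.symm (N.r0 (e0 γ))) = N'.r0 (e0' (e0.symm (e0 γ)))
       rw [h0, LinearEquiv.symm_apply_apply, LinearEquiv.symm_apply_apply, h0']
     comm1 := fun n => by
       obtain ⟨γ, rfl⟩ := e1.surjective n
       show e01' (e01.symm (N.r1 (e1 γ))) = N'.r1 (e1' (e1.symm (e1 γ)))
       rw [h1, LinearEquiv.symm_apply_apply, LinearEquiv.symm_apply_apply, h1'] }⟩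

end Fermat.Agent.S26
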