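/-
S26 / SS / Main : block SS, the final assembly (package SS-7): `seesaw'`.
-/
import Fermat.Agent.S26.SS.Wire
import Fermat.Agent.S26.SS.KeyB
import Fermat.Agent.S27.B.TensorDomain

set_option autoImplicit false

open scoped TensorProduct

universe u

namespace Fermat.Agent.S26

variable {K : Type u} [Field K] [IsAlgClosed K] {C : Curve K}

variable {X Y : PtF K} (𝓔 : LBun (X.prod Y)) (h : CPt C Y K)

/-! ### congruence in `τ` -/

section Congr

variable {R : Type u} [CommRing R] [Algebra K R]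

omit [IsAlgClosed K] in
theorem main_ssEv0_congr (a : X.pt R) {τ τ' : C.B0 →ₐ[K] R} (hτ : τ = τ') {y : Y.pt R}
    (hy : Y.map (Algebra.TensorProduct.productMap (Algebra.ofId K R) τ) h.u0 = y)
    (hy' : Y.map (Algebra.TensorProduct.productMap (Algebra.ofId K R) τ') h.u0 = y)
    (n : (ssN 𝓔 h a).N0) : ssEv0 𝓔 h a τ hy n = ssEv0 𝓔 h a τ' hy' n := by
  subst hτ
  rfl

omit [IsAlgClosed K] in
theorem main_ssEv1_congr (a : X.pt R) {τ τ' : C.B1 →ₐ[K] R} (hτ : τ = τ') {y : Y.pt R}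
    (hy : Y.map (Algebra.TensorProduct.productMap (Algebra.ofId K R) τ) h.u1 = y)
    (hy' : Y.map (Algebra.TensorProduct.productMap (Algebra.ofId K R) τ') h.u1 = y)
    (n : (ssN 𝓔 h a).N1) : ssEv1 𝓔 h a τ hy n = ssEv1 𝓔 h a τ' hy' n := by
  subst hτ
  rfl

end Congr

/-! ### the evaluation maps as linear equivalences -/

section Equiv

variable {R : Type u} [CommRing R] [IsDomain R] [Algebra K R] [Algebra.FiniteType K R]
  (htriv : ∀ a : X.pt K, Nonempty (CMod.Iso (𝓔.pull ((CPt.cst C a).pair h)) (CMod.one C K)))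

/-- evaluation of global sections through the chart `0` -/
noncomputable def mainE0 (a : X.pt R) (τ : C.B0 →ₐ[K] R) {y : Y.pt R}
    (hy : Y.map (Algebra.TensorProduct.productMap (Algebra.ofId K R) τ) h.u0 = y) :
    (ssN 𝓔 h a).toP1Mod.H0 ≃ₗ[R] 𝓔.M (PtF.pair a y) :=
  LinearEquiv.ofBijective
    { toFun := fun γ => ssEv0 𝓔 h a τ hy γ.1.1
      map_add' := fun γ γ' => (ssEv0 𝓔 h a τ hy).map_add γ.1.1 γ'.1.1
      map_smul' := fun r γ => ssEv0_smul 𝓔 h a τ hy r γ }
    (haveI := 𝓔.inv (PtF.pair a y)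
     ss_key0' (ssN 𝓔 h a) (fun s => ssN_fibre 𝓔 h htriv a s) τ _ (ssEv0 𝓔 h a τ hy)
      (ssEv0_span 𝓔 h a τ hy))

/-- evaluation of global sections through the chart `1` -/
noncomputable def mainE1 (a : X.pt R) (τ : C.B1 →ₐ[K] R) {y : Y.pt R}
    (hy : Y.map (Algebra.TensorProduct.productMap (Algebra.ofId K R) τ) h.u1 = y) :
    (ssN 𝓔 h a).toP1Mod.H0 ≃ₗ[R] 𝓔.M (PtF.pair a y) :=
  LinearEquiv.ofBijective
    { toFun := fun γ => ssEv1 𝓔 h a τ hy γ.1.2
      map_add' := fun γ γ' => (ssEv1 𝓔 h a τ hy).map_add γ.1.2 γ'.1.2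
      map_smul' := fun r γ => ssEv1_smul 𝓔 h a τ hy r γ }
    (haveI := 𝓔.inv (PtF.pair a y)
     ss_key1' (ssN 𝓔 h a) (fun s => ssN_fibre 𝓔 h htriv a s) τ _ (ssEv1 𝓔 h a τ hy)
      (ssEv1_span 𝓔 h a τ hy))

theorem mainE0_apply (a : X.pt R) (τ : C.B0 →ₐ[K] R) {y : Y.pt R}
    (hy : Y.map (Algebra.TensorProduct.productMap (Algebra.ofId K R) τ) h.u0 = y)
    (γ : (ssN 𝓔 h a).toP1Mod.H0) : mainE0 𝓔 h htriv a τ hy γ = ssEv0 𝓔 h a τ hy γ.1.1 := rfl

theorem mainE1_apply (a : X.pt R) (τ : C.B1 →ₐ[K] R) {y : Y.pt R}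
    (hy : Y.map (Algebra.TensorProduct.productMap (Algebra.ofId K R) τ) h.u1 = y)
    (γ : (ssN 𝓔 h a).toP1Mod.H0) : mainE1 𝓔 h htriv a τ hy γ = ssEv1 𝓔 h a τ hy γ.1.2 := rfl

end Equiv

/-! ### identities between algebra homomorphisms -/

section AlgHoms

variable {B B' : Type u} [CommRing B] [Algebra K B] [CommRing B'] [Algebra K B']

omit [IsAlgClosed K] in
theorem main_productMap_includeRight :
    Algebra.TensorProduct.productMap (Algebra.ofId K (K ⊗[K] B))
      (Algebra.TensorProduct.includeRight : B →ₐ[K] K ⊗[K] B) = AlgHom.id K (K ⊗[K] B) := by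
  apply Algebra.TensorProduct.ext'
  intro a b
  rw [Algebra.TensorProduct.productMap_apply_tmul, Algebra.ofId_apply,
    Algebra.TensorProduct.algebraMap_apply, Algebra.TensorProduct.includeRight_apply,
    Algebra.TensorProduct.tmul_mul_tmul, mul_one, one_mul]
  rfl

omit [IsAlgClosed K] in
theorem main_productMap_map (j : B →ₐ[K] B') :
    Algebra.TensorProduct.productMap (Algebra.ofId K (K ⊗[K] B'))
      ((Algebra.TensorProduct.map (AlgHom.id K K) j).comp
        (Algebra.TensorProduct.includeRight : B →ₐ[K] K ⊗[K] B)) =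
      Algebra.TensorProduct.map (AlgHom.id K K) j := by
  apply Algebra.TensorProduct.ext'
  intro a b
  rw [Algebra.TensorProduct.productMap_apply_tmul, Algebra.ofId_apply,
    Algebra.TensorProduct.algebraMap_apply, AlgHom.comp_apply,
    Algebra.TensorProduct.includeRight_apply, Algebra.TensorProduct.map_tmul,
    Algebra.TensorProduct.map_tmul, Algebra.TensorProduct.tmul_mul_tmul, one_mul]
  simp

omit [IsAlgClosed K] in
theorem main_includeRight_comp (j : B →ₐ[K] B') :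
    (Algebra.TensorProduct.includeRight : B' →ₐ[K] K ⊗[K] B').comp j =
      (Algebra.TensorProduct.map (AlgHom.id K K) j).comp
        (Algebra.TensorProduct.includeRight : B →ₐ[K] K ⊗[K] B) := by
  ext b
  simp

omit [IsAlgClosed K] in
theorem main_productMap_const {R : Type u} [CommRing R] [Algebra K R] (t₀ : B →ₐ[K] K)
    (i : K →ₐ[K] R) :
    Algebra.TensorProduct.productMap (Algebra.ofId K R) ((Algebra.ofId K R).comp t₀) =
      i.comp (Algebra.TensorProduct.productMap (Algebra.ofId K K) t₀) := by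
  have hi : i = Algebra.ofId K R := Subsingleton.elim _ _
  subst hi
  apply Algebra.TensorProduct.ext'
  intro a b
  rw [AlgHom.comp_apply, Algebra.TensorProduct.productMap_apply_tmul,
    Algebra.TensorProduct.productMap_apply_tmul, map_mul, AlgHom.comp_apply]
  rfl

omit [IsAlgClosed K] in
theorem main_comp_const {R R' : Type u} [CommRing R] [Algebra K R] [CommRing R'] [Algebra K R']
    (φ : R →ₐ[K] R') (t₀ : B →ₐ[K] K) :
    φ.comp ((Algebra.ofId K R).comp t₀) = (Algebra.ofId K R').comp t₀ := by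
  ext b
  simp [Algebra.ofId_apply]

end AlgHoms

/-! ### SS-7 : the assembly -/

theorem seesaw' (f : CPt C X K)
    (htriv : ∀ a : X.pt K, Nonempty (CMod.Iso (𝓔.pull ((CPt.cst C a).pair h)) (CMod.one C K))) :
    ∃ y₀ : Y.pt K, Nonempty (CMod.Iso (𝓔.pull (f.pair h)) (𝓔.pull (f.pair (CPt.cst C y₀)))) := by
  have : IsDomain (C.S0 K) := C.isDomain_S0 K
  have : IsDomain (C.S1 K) := C.isDomain_S1 K
  have : IsDomain (C.S01 K) := C.isDomain_S01 K
  have : Algebra.FiniteType K C.B0 := C.finiteType_B0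
  have : Algebra.FiniteType K C.B1 := C.finiteType_B1
  have : Algebra.FiniteType K C.B01 := C.finiteType_B01
  obtain ⟨t₀⟩ := Fermat.Agent.S27.td_exists_algHom K C.B0
  set y₀ : Y.pt K := Y.map (Algebra.TensorProduct.productMap (Algebra.ofId K K) t₀) h.u0 with hy₀
  refine ⟨y₀, ?_⟩
  -- the sections
  let ι0 : C.B0 →ₐ[K] C.S0 K := Algebra.TensorProduct.includeRight
  let ι1 : C.B1 →ₐ[K] C.S1 K := Algebra.TensorProduct.includeRight
  let ι01 : C.B01 →ₐ[K] C.S01 K := Algebra.TensorProduct.includeRight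
  -- the diagonal
  have hd0 : Y.map (Algebra.TensorProduct.productMap (Algebra.ofId K (C.S0 K)) ι0) h.u0 = h.u0 := by
    rw [main_productMap_includeRight, Y.map_id]
  have hd1 : Y.map (Algebra.TensorProduct.productMap (Algebra.ofId K (C.S1 K)) ι1) h.u1 = h.u1 := by
    rw [main_productMap_includeRight, Y.map_id]
  have hd01 : Y.map (Algebra.TensorProduct.productMap (Algebra.ofId K (C.S01 K))
      ((C.J0 K).comp ι0)) h.u0 = h.u01 := by
    rw [main_productMap_map, h.h0]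
  have hd01' : Y.map (Algebra.TensorProduct.productMap (Algebra.ofId K (C.S01 K))
      ((C.J1 K).comp ι1)) h.u1 = h.u01 := by
    rw [main_productMap_map, h.h1]
  -- the constant section
  have hc0 : Y.map (Algebra.TensorProduct.productMap (Algebra.ofId K (C.S0 K))
      ((Algebra.ofId K (C.S0 K)).comp t₀)) h.u0 = (CPt.cst C y₀).u0 := by
    rw [main_productMap_const t₀ (Algebra.TensorProduct.includeLeft : K →ₐ[K] C.S0 K), Y.map_comp]
    rfl
  have hc1 : Y.map (Algebra.TensorProduct.productMap (Algebra.ofId K (C.S1 K))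
      ((Algebra.ofId K (C.S1 K)).comp t₀)) h.u0 = (CPt.cst C y₀).u1 := by
    rw [main_productMap_const t₀ (Algebra.TensorProduct.includeLeft : K →ₐ[K] C.S1 K), Y.map_comp]
    rfl
  have hc01 : Y.map (Algebra.TensorProduct.productMap (Algebra.ofId K (C.S01 K))
      ((Algebra.ofId K (C.S01 K)).comp t₀)) h.u0 = (CPt.cst C y₀).u01 := by
    rw [main_productMap_const t₀ (Algebra.TensorProduct.includeLeft : K →ₐ[K] C.S01 K), Y.map_comp]
    rfl
  refine ss_glue (N := 𝓔.pull (f.pair h)) (N' := 𝓔.pull (f.pair (CPt.cst C y₀)))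
    (ssRes 𝓔 h (C.J0 K) f.u0 f.h0).mapH0 (ssRes 𝓔 h (C.J1 K) f.u1 f.h1).mapH0
    (mainE0 𝓔 h htriv f.u0 ι0 hd0) (mainE1 𝓔 h htriv f.u1 ι1 hd1)
    (mainE0 𝓔 h htriv f.u01 ((C.J0 K).comp ι0) hd01)
    (mainE0 𝓔 h htriv f.u0 _ hc0) (mainE0 𝓔 h htriv f.u1 _ hc1) (mainE0 𝓔 h htriv f.u01 _ hc01)
    ?_ ?_ ?_ ?_
  · intro γ
    exact ssEv0_nat 𝓔 h (C.J0 K) f.u0 f.h0 ι0 hd0 hd01 (f.pair h).h0 γ.1.1
  · intro γ
    refine (ssEv1_nat 𝓔 h (C.J1 K) f.u1 f.h1 ι1 hd1 hd01' (f.pair h).h1 γ.1.2).trans ?_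
    have hy0 : Y.map (Algebra.TensorProduct.productMap (Algebra.ofId K (C.S01 K))
        (ι01.comp C.j0)) h.u0 = h.u01 := by
      rw [main_includeRight_comp]; exact hd01
    have hy1 : Y.map (Algebra.TensorProduct.productMap (Algebra.ofId K (C.S01 K))
        (ι01.comp C.j1)) h.u1 = h.u01 := by
      rw [main_includeRight_comp]; exact hd01'
    refine (main_ssEv1_congr 𝓔 h f.u01 (main_includeRight_comp C.j1).symm hd01' hy1 _).trans ?_
    refine (ssEv0_eq_ssEv1 𝓔 h f.u01 ι01 hy0 hy1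
      ((ssRes 𝓔 h (C.J1 K) f.u1 f.h1).mapH0 γ)).symm.trans ?_
    exact main_ssEv0_congr 𝓔 h f.u01 (main_includeRight_comp C.j0) hy0 hd01 _
  · intro γ
    have hy' : Y.map (Algebra.TensorProduct.productMap (Algebra.ofId K (C.S01 K))
        ((C.J0 K).comp ((Algebra.ofId K (C.S0 K)).comp t₀))) h.u0 = (CPt.cst C y₀).u01 := by
      rw [main_comp_const]; exact hc01
    refine (ssEv0_nat 𝓔 h (C.J0 K) f.u0 f.h0 ((Algebra.ofId K (C.S0 K)).comp t₀) hc0 hy'
      (f.pair (CPt.cst C y₀)).h0 γ.1.1).trans ?_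
    exact main_ssEv0_congr 𝓔 h f.u01 (main_comp_const (C.J0 K) t₀) hy' hc01 _
  · intro γ
    have hy' : Y.map (Algebra.TensorProduct.productMap (Algebra.ofId K (C.S01 K))
        ((C.J1 K).comp ((Algebra.ofId K (C.S1 K)).comp t₀))) h.u0 = (CPt.cst C y₀).u01 := by
      rw [main_comp_const]; exact hc01
    refine (ssEv0_nat 𝓔 h (C.J1 K) f.u1 f.h1 ((Algebra.ofId K (C.S1 K)).comp t₀) hc1 hy'
      (f.pair (CPt.cst C y₀)).h1 γ.1.1).trans ?_
    exact main_ssEv0_congr 𝓔 h f.u01 (main_comp_const (C.J1 K) t₀) hy' hc01 _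

end Fermat.Agent.S26
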