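/-
S26 / SS / Nat : the proofs of package SS-6 (helper45) now live in `SS/Wire.lean` (unprimed names).
-/
import Fermat.Agent.S26.SS.Wire
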